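import Fermat.Agent.CubicTwoTorsion.Quartic

/-!
# From a class killed by two to a quartic field

If `𝔟² = (β)` and `𝔟` is not principal, some `b₀ ∈ 𝔟` makes `γ = b₀² / β` an integer outside `ℚ`,
no square, of square norm, so `4 γ` is a root of the resolvent of an irreducible quartic.
-/

set_option autoImplicit false
set_option linter.style.haveILetI false

noncomputable section

open NumberField Module Polynomial
open FA.QuarticResolvent (resEval Depressed vieta3 cubic_gen exists_embeddings)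
open scoped Classical nonZeroDivisors

namespace FA.CubicTwoTorsion

variable {K : Type} [Field K] [NumberField K]

/-- A square root of a generator of `I²` generates `I`. -/
theorem span_of_sq {I : Ideal (𝓞 K)} {β h : 𝓞 K} (hI : I ^ 2 = Ideal.span {β}) (hh : h ^ 2 = β) :
    I = Ideal.span {h} := by
  have e : I ^ 2 = Ideal.span {h} ^ 2 := by rw [hI, Ideal.span_singleton_pow, hh]
  exact dvd_antisymm ((UniqueFactorizationMonoid.pow_dvd_pow_iff_dvd two_ne_zero).1 e.dvd)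
    ((UniqueFactorizationMonoid.pow_dvd_pow_iff_dvd two_ne_zero).1 e.symm.dvd)

/-- **The data of a class.** -/
theorem exists_class_data (hK : finrank ℚ K = 3) {c : ClassGroup (𝓞 K)} (hc : c ^ 2 = 1)
    (hc1 : c ≠ 1) : ∃ (I : (Ideal (𝓞 K))⁰) (β b₀ γ : 𝓞 K) (m : ℤ),
      ClassGroup.mk0 I = c ∧ (I : Ideal (𝓞 K)) ^ 2 = Ideal.span {β} ∧ γ * β = b₀ ^ 2 ∧ b₀ ≠ 0 ∧
        (∀ u : ℚ, (u : K) ≠ γ) ∧ ¬ IsSquare (γ : K) ∧ Algebra.norm ℤ γ = m ^ 2 := by
  obtain ⟨I, rfl⟩ := ClassGroup.mk0_surjective c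
  have hI0 : (I : Ideal (𝓞 K)) ≠ 0 := nonZeroDivisors.coe_ne_zero I
  have hpr : ((I : Ideal (𝓞 K)) ^ 2).IsPrincipal := by
    obtain ⟨J, hJ⟩ := I
    refine (ClassGroup.mk0_eq_one_iff (pow_mem hJ 2)).1 ?_
    rw [← map_pow] at hc
    rwa [SubmonoidClass.mk_pow] at hc
  obtain ⟨β₁, hβ₁⟩ : ∃ β, (I : Ideal (𝓞 K)) ^ 2 = Ideal.span {β} :=
    ⟨hpr.generator, (Ideal.span_singleton_generator _).symm⟩
  set B := Ideal.absNorm (I : Ideal (𝓞 K))
  have hB : 0 < B := Nat.pos_of_ne_zero (by rw [Ne, Ideal.absNorm_eq_zero_iff]; exact hI0)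
  obtain ⟨β, hβ, hNβ⟩ : ∃ β, (I : Ideal (𝓞 K)) ^ 2 = Ideal.span {β} ∧
      Algebra.norm ℤ β = (B : ℤ) ^ 2 := by
    have habs := congrArg Ideal.absNorm hβ₁
    rw [map_pow, Ideal.absNorm_span_singleton] at habs
    rcases Int.natAbs_eq (Algebra.norm ℤ β₁) with h | h
    · exact ⟨β₁, hβ₁, by rw [h, ← habs]; push_cast; rfl⟩
    · refine ⟨-β₁, by rw [hβ₁, Ideal.span_singleton_neg], ?_⟩
      rw [show -β₁ = algebraMap ℤ (𝓞 K) (-1) * β₁ by simp, map_mul, Algebra.norm_algebraMap,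
        RingOfIntegers.rank, hK, h, ← habs]
      push_cast; ring
  have hβ0 : β ≠ 0 := fun h => by
    rw [h, Algebra.norm_zero] at hNβ; exact absurd hNβ.symm (by positivity)
  have hβK : (β : K) ≠ 0 := RingOfIntegers.coe_ne_zero_iff.2 hβ0
  -- an element with irrational quotient
  obtain ⟨b₀, hb₀, hirr⟩ : ∃ b ∈ (I : Ideal (𝓞 K)), ∀ u : ℚ, (u : K) ≠ (b : K) ^ 2 / β := by
    by_contra! h
    let bI := Ideal.selfBasis (RingOfIntegers.basis K) (I : Ideal (𝓞 K)) hI0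
    obtain ⟨i, j, hij⟩ : ∃ i j : Free.ChooseBasisIndex ℤ (𝓞 K), i ≠ j := by
      have : 1 < Fintype.card (Free.ChooseBasisIndex ℤ (𝓞 K)) := by
        rw [← finrank_eq_card_chooseBasisIndex, RingOfIntegers.rank, hK]; norm_num
      exact Fintype.one_lt_card_iff.1 this
    set x : K := ((bI i : 𝓞 K) : K) with hxdef
    set y : K := ((bI j : 𝓞 K) : K) with hydef
    obtain ⟨q₁, h1⟩ := h _ (bI i).2
    obtain ⟨q₂, h2⟩ := h _ (bI j).2
    obtain ⟨q₃, h3⟩ := h _ (Ideal.add_mem _ (bI i).2 (bI j).2)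
    have hx : x ≠ 0 := RingOfIntegers.coe_ne_zero_iff.2 fun e => bI.ne_zero i (Subtype.ext e)
    have hq₁ : q₁ ≠ 0 := by
      rintro rfl
      simp only [Rat.cast_zero] at h1
      exact div_ne_zero (pow_ne_zero 2 hx) hβK h1.symm
    rw [RingOfIntegers.coe_eq_algebraMap, map_add] at h3
    have hy : y = (((q₃ - q₁ - q₂) / (2 * q₁) : ℚ) : K) * x := by
      have hq : (q₁ : K) ≠ 0 := Rat.cast_ne_zero.2 hq₁
      push_cast
      rw [div_mul_eq_mul_div, eq_div_iff (mul_ne_zero two_ne_zero hq), h1, h2, h3]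
      simp only [x, y]
      field_simp
      ring
    set t : ℚ := (q₃ - q₁ - q₂) / (2 * q₁)
    have hrel : (t.den : ℤ) • bI j + (-t.num) • bI i = 0 := by
      refine Subtype.ext (RingOfIntegers.coe_injective ?_)
      simp only [Submodule.coe_add, Submodule.coe_smul_of_tower, ZeroMemClass.coe_zero, map_zero,
        map_add, zsmul_eq_mul, map_mul, map_intCast]
      rw [show algebraMap (𝓞 K) K (bI j : 𝓞 K) = (t : K) * x from hy,
        show algebraMap (𝓞 K) K (bI i : 𝓞 K) = x from rfl]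
      have ht : ((t.den : ℤ) : K) * (t : K) = (t.num : K) := by
        exact_mod_cast congrArg (fun q : ℚ => (q : K)) (Rat.den_mul_eq_num t)
      push_cast at ht ⊢
      linear_combination x * ht
    have := Fintype.linearIndependent_iff.1 bI.linearIndependent
      (fun l => if l = j then (t.den : ℤ) else if l = i then -t.num else 0) (by
        rw [Finset.sum_eq_add j i hij.symm (fun l _ h => by simp [h.1, h.2]) (by simp) (by simp)]
        simpa [hij] using hrel) j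
    simp at this
  have hb00 : b₀ ≠ 0 := fun h => hirr 0 (by rw [h]; simp)
  obtain ⟨γ, hγ⟩ : ∃ γ, γ * β = b₀ ^ 2 := by
    obtain ⟨γ, hγ⟩ := Ideal.mem_span_singleton'.1 (hβ ▸ Ideal.pow_mem_pow hb₀ 2)
    exact ⟨γ, hγ⟩
  have hγK : (γ : K) = (b₀ : K) ^ 2 / β := by
    rw [eq_div_iff hβK]
    exact_mod_cast congrArg (fun x : 𝓞 K => (x : K)) hγ
  obtain ⟨m, hm⟩ := Ideal.absNorm_dvd_norm_of_mem hb₀
  refine ⟨I, β, b₀, γ, m, rfl, hβ, hγ, hb00, fun u hu => hirr u (hu.trans hγK), ?_, ?_⟩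
  · rintro ⟨g, hg⟩
    have hg0 : g ≠ 0 := by
      rintro rfl
      rw [mul_zero] at hg
      exact hirr 0 (by rw [← hγK, hg, Rat.cast_zero])
    have hh : ((b₀ : K) / g) ^ 2 = β := by
      rw [div_pow, div_eq_iff (pow_ne_zero 2 hg0), sq g, ← hg, hγK]
      field_simp
    have hint : IsIntegral ℤ ((b₀ : K) / g) :=
      IsIntegral.of_pow two_pos (hh ▸ RingOfIntegers.isIntegral_coe β)
    refine hc1 ((ClassGroup.mk0_eq_one_iff (SetLike.coe_mem I)).2 ⟨⟨⟨_, hint⟩, ?_⟩⟩)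
    exact span_of_sq hβ (RingOfIntegers.coe_injective (by rw [map_pow]; exact hh))
  · have h := congrArg (Algebra.norm ℤ) hγ
    rw [map_mul, map_pow, hNβ, hm, mul_pow, mul_comm] at h
    exact mul_left_cancel₀ (by positivity) h

/-- **The resolvent with root `4 γ`.** -/
theorem exists_coeff (hK : finrank ℚ K = 3) {γ : 𝓞 K} {m : ℤ} (hirr : ∀ u : ℚ, (u : K) ≠ γ)
    (hn : Algebra.norm ℤ γ = m ^ 2) :
    ∃ p q r : ℤ, resEval (p : K) q r (4 * (γ : K)) = 0 := by
  have hint : IsIntegral ℤ (γ : K) := RingOfIntegers.isIntegral_coe γ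
  set g := minpoly ℤ (γ : K)
  have hdeg : g.natDegree = 3 := by
    have h := (FA.CubicFieldsBound.natDegree_minpoly hK hirr).2
    rw [minpoly.isIntegrallyClosed_eq_field_fractions' ℚ hint,
      (minpoly.monic hint).natDegree_map] at h
    exact h
  have hroot : (γ : K) ^ 3 + (g.coeff 2 : K) * (γ : K) ^ 2 + (g.coeff 1 : K) * (γ : K) +
      (g.coeff 0 : K) = 0 := by
    have := minpoly.aeval ℤ (γ : K)
    rw [show minpoly ℤ (γ : K) = g from rfl, aeval_eq_sum_range, hdeg, Finset.sum_range_succ,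
      Finset.sum_range_succ, Finset.sum_range_succ, Finset.sum_range_succ, Finset.sum_range_zero,
      show g.coeff 3 = 1 from hdeg ▸ minpoly.monic hint] at this
    simp only [zsmul_eq_mul] at this
    push_cast at this
    linear_combination this
  obtain ⟨e⟩ := exists_embeddings K hK
  have hz : ∀ i, (e i γ) ^ 3 + (g.coeff 2 : ℂ) * (e i γ) ^ 2 + (g.coeff 1 : ℂ) * (e i γ) +
      (g.coeff 0 : ℂ) = 0 := fun i => by simpa using congrArg (e i) hroot
  have hne : ∀ i j, i ≠ j → e i (γ : K) ≠ e j γ := fun i j h he =>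
    h (e.injective (cubic_gen hK hirr he))
  obtain ⟨-, -, h3⟩ := vieta3 (hne 0 1 (by decide)) (hne 0 2 (by decide)) (hne 1 2 (by decide))
    (hz 0) (hz 1) (hz 2)
  have hnorm : e 0 (γ : K) * e 1 γ * e 2 γ = ((m ^ 2 : ℤ) : ℂ) := by
    rw [← Fin.prod_univ_three (fun i => e i (γ : K)),
      Equiv.prod_comp e (fun σ : K →ₐ[ℚ] ℂ => σ (γ : K)), ← Algebra.norm_eq_prod_embeddings,
      ← Algebra.coe_norm_int, hn, map_intCast]
  have hc0 : g.coeff 0 = -m ^ 2 := by
    refine Int.cast_injective (α := ℂ) ?_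
    rw [hnorm] at h3
    push_cast at h3 ⊢
    linear_combination h3
  refine ⟨2 * g.coeff 2, -8 * m, g.coeff 2 ^ 2 - 4 * g.coeff 1, ?_⟩
  rw [hc0] at hroot
  unfold resEval
  push_cast at hroot ⊢
  linear_combination 64 * hroot

/-- **A class gives a quartic field**: its resolvent has the root `4 b₀² / β`. -/
theorem exists_quartic_of_class (hK : finrank ℚ K = 3) {c : ClassGroup (𝓞 K)} (hc : c ^ 2 = 1)
    (hc1 : c ≠ 1) : ∃ (L : Type) (_ : Field L) (_ : NumberField L), finrank ℚ L = 4 ∧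
      ∃ (D : Depressed L) (I : (Ideal (𝓞 K))⁰) (β b₀ : 𝓞 K) (φ : K), D.NoRatRoot ∧ D.IsRes φ ∧
        ClassGroup.mk0 I = c ∧ (I : Ideal (𝓞 K)) ^ 2 = Ideal.span {β} ∧ b₀ ≠ 0 ∧
        φ * β = 4 * (b₀ : K) ^ 2 := by
  obtain ⟨I, β, b₀, γ, m, hI, hβ, hγ, hb, hirr, hsq, hn⟩ := exists_class_data hK hc hc1
  obtain ⟨p, q, r, hφ⟩ := exists_coeff hK hirr hn
  have hirr' : ∀ u : ℚ, (u : K) ≠ 4 * (γ : K) := fun u hu =>
    hirr (u / 4) (by push_cast; rw [hu]; ring)
  have hsq' : ¬ IsSquare (4 * (γ : K)) := fun ⟨s, hs⟩ =>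
    hsq ⟨s / 2, by field_simp; linear_combination hs⟩
  obtain ⟨L, hF, hNF, hL, D, rfl, rfl, rfl⟩ := exists_field hK hirr' hsq' hφ
  exact ⟨L, hF, hNF, hL, D, I, β, b₀, 4 * (γ : K), noRatRoot_of_res D hK hirr' hφ, hφ, hI, hβ,
    hb, by rw [mul_assoc, ← map_mul, hγ, map_pow]⟩

end FA.CubicTwoTorsion
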