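import Fermat.Agent.CubicTwoTorsion.Lattice
import Fermat.Agent.QuarticCount.Main

/-!
# Counting the classes

The quartic field determines the cubic field and, up to its three automorphisms, the class; so the
classes killed by two are at most three times the quartic fields of comparable discriminant.
-/

set_option autoImplicit false
set_option linter.style.haveILetI false

noncomputable section

open NumberField Module Finset
open FA.QuarticResolvent (Depressed exists_transfer res_irrat exists_embeddings)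
open scoped Classical nonZeroDivisors

namespace FA.CubicTwoTorsion

/-- The class `c` gives the quartic field `L`. -/
def Gives {K : Type} [Field K] [NumberField K] (c : ClassGroup (𝓞 K)) (L : Type) [Field L]
    [NumberField L] : Prop :=
  finrank ℚ L = 4 ∧ ∃ (D : Depressed L) (I : (Ideal (𝓞 K))⁰) (β b₀ : 𝓞 K) (φ : K),
    D.NoRatRoot ∧ D.IsRes φ ∧ ClassGroup.mk0 I = c ∧ (I : Ideal (𝓞 K)) ^ 2 = Ideal.span {β} ∧
      b₀ ≠ 0 ∧ φ * β = 4 * (b₀ : K) ^ 2

section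
variable {K : Type} [Field K] [NumberField K]

/-- **Every class gives a field of comparable discriminant.** -/
theorem exists_gives (hK : finrank ℚ K = 3) {c : ClassGroup (𝓞 K)} (hc : c ^ 2 = 1)
    (hc1 : c ≠ 1) : ∃ (L : Type) (_ : Field L) (_ : NumberField L),
      Gives c L ∧ |discr L| ≤ 256 * |discr K| := by
  obtain ⟨L, hF, hNF, hL, D, I, β, b₀, φ, hR, hφ, hI, hβ, hb, hrel⟩ :=
    exists_quartic_of_class hK hc hc1
  exact ⟨L, hF, hNF, ⟨hL, D, I, β, b₀, φ, hR, hφ, hI, hβ, hb, hrel⟩,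
    discr_quartic_le D hL hR hK hφ hβ hb hrel⟩

/-- The class of the root up to squares is the class of the ideal. -/
theorem class_eq_of_square {I I' : (Ideal (𝓞 K))⁰} {β β' b₀ b₀' : 𝓞 K} {φ φ' w : K}
    (hI : (I : Ideal (𝓞 K)) ^ 2 = Ideal.span {β}) (hI' : (I' : Ideal (𝓞 K)) ^ 2 = Ideal.span {β'})
    (hb : b₀ ≠ 0) (hb' : b₀' ≠ 0) (h : φ * β = 4 * (b₀ : K) ^ 2)
    (h' : φ' * β' = 4 * (b₀' : K) ^ 2) (hw : φ' = φ * w ^ 2) :
    ClassGroup.mk0 I = ClassGroup.mk0 I' := by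
  have hbK : (b₀ : K) ≠ 0 := RingOfIntegers.coe_ne_zero_iff.2 hb
  have hbK' : (b₀' : K) ≠ 0 := RingOfIntegers.coe_ne_zero_iff.2 hb'
  have h4 : (4 : K) * (b₀' : K) ^ 2 ≠ 0 := mul_ne_zero (by norm_num) (pow_ne_zero 2 hbK')
  have hw0 : w ≠ 0 := fun e => h4 (by rw [← h', hw, e]; ring)
  have hφ0 : φ ≠ 0 := fun e => h4 (by rw [← h', hw, e]; ring)
  obtain ⟨a, s, hs, has⟩ := IsFractionRing.div_surjective (A := 𝓞 K) ((b₀' : K) / ((b₀ : K) * w))
  have hs0 : s ≠ 0 := nonZeroDivisors.ne_zero hs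
  have hsK : (s : K) ≠ 0 := RingOfIntegers.coe_ne_zero_iff.2 hs0
  have e1 : (β' : K) = (β : K) * ((b₀' : K) / ((b₀ : K) * w)) ^ 2 := by
    field_simp
    refine mul_left_cancel₀ hφ0 ?_
    rw [hw] at h'
    linear_combination (b₀ : K) ^ 2 * h' - (b₀' : K) ^ 2 * h
  have e2 : β' * s ^ 2 = β * a ^ 2 := by
    refine RingOfIntegers.coe_injective ?_
    rw [map_mul, map_mul, map_pow, map_pow]
    rw [← has] at e1
    show (β' : K) * (s : K) ^ 2 = (β : K) * (a : K) ^ 2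
    rw [e1]
    field_simp
  have ha : a ≠ 0 := by
    rintro rfl
    rw [map_zero, zero_div] at has
    exact div_ne_zero hbK' (mul_ne_zero hbK hw0) has.symm
  refine ClassGroup.mk0_eq_mk0_iff.2 ⟨a, s, ha, hs0, ?_⟩
  have e3 : (Ideal.span {a} * (I : Ideal (𝓞 K))) ^ 2 =
      (Ideal.span {s} * (I' : Ideal (𝓞 K))) ^ 2 := by
    rw [mul_pow, mul_pow, hI, hI', Ideal.span_singleton_pow, Ideal.span_singleton_pow,
      Ideal.span_singleton_mul_span_singleton, Ideal.span_singleton_mul_span_singleton,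
      mul_comm (a ^ 2), mul_comm (s ^ 2), e2]
  exact dvd_antisymm ((UniqueFactorizationMonoid.pow_dvd_pow_iff_dvd two_ne_zero).1 e3.dvd)
    ((UniqueFactorizationMonoid.pow_dvd_pow_iff_dvd two_ne_zero).1 e3.symm.dvd)

end

/-- **The field determines the cubic field and the root up to squares and an isomorphism.** -/
theorem exists_transfer_iso {K K' L L' : Type} [Field K] [NumberField K] [Field K']
    [NumberField K'] [Field L] [NumberField L] [Field L'] [NumberField L'] (hK : finrank ℚ K = 3)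
    (hK' : finrank ℚ K' = 3) (hn : finrank ℚ L = 4) (D : Depressed L) (D' : Depressed L')
    (hR : D.NoRatRoot) (hR' : D'.NoRatRoot) {φ : K} {φ' : K'} (hφ : D.IsRes φ) (hφ' : D'.IsRes φ')
    (σ : L' ≃+* L) : ∃ (τ : K ≃ₐ[ℚ] K') (g : K'), φ' = τ φ * g ^ 2 := by
  let σ' : L' ≃ₐ[ℚ] L := AlgEquiv.ofRingEquiv (f := σ) fun x => by simp
  let D'' : Depressed L := ⟨σ' D'.θ, D'.p, D'.q, D'.r, by simpa using congrArg σ' D'.root,
    by rw [minpoly.algEquiv_eq σ' D'.θ]; exact D'.deg⟩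
  obtain ⟨g, hg⟩ := exists_transfer D D'' hn hR hK hφ
  obtain ⟨τ, hτ⟩ := exists_iso_of_res D'' hR' hK hK' hg hφ'
  exact ⟨τ, τ g, by rw [← hτ, map_mul, map_pow]⟩

/-- **One quartic field for at most three classes.** -/
theorem card_fibre_le {K L₀ : Type} [Field K] [NumberField K] [Field L₀] [NumberField L₀]
    (hK : finrank ℚ K = 3) {c₀ : ClassGroup (𝓞 K)} (h₀ : Gives c₀ L₀)
    (S : Finset (ClassGroup (𝓞 K)))
    (hS : ∀ c ∈ S, ∃ (L : Type) (_ : Field L) (_ : NumberField L),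
      Gives c L ∧ Nonempty (L ≃+* L₀)) : S.card ≤ 3 := by
  obtain ⟨hn, D, I, β, b₀, φ, hR, hφ, hI, hβ, hb, hrel⟩ := h₀
  have key : ∀ c : S, ∃ (I' : (Ideal (𝓞 K))⁰) (β' b₀' : 𝓞 K) (φ' : K) (τ : K ≃ₐ[ℚ] K) (g : K),
      ClassGroup.mk0 I' = c.1 ∧ (I' : Ideal (𝓞 K)) ^ 2 = Ideal.span {β'} ∧ b₀' ≠ 0 ∧
        φ' * β' = 4 * (b₀' : K) ^ 2 ∧ φ' = τ φ * g ^ 2 := by
    intro c
    obtain ⟨L, hF, hNF, ⟨hn', D', I', β', b₀', φ', hR', hφ', hI', hβ', hb', hrel'⟩, ⟨σ⟩⟩ :=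
      hS c.1 c.2
    obtain ⟨τ, g, hg⟩ := exists_transfer_iso hK hK hn D D' hR hR' hφ hφ' σ
    exact ⟨I', β', b₀', φ', τ, g, hI', hβ', hb', hrel', hg⟩
  choose I' β' b₀' φ' τ g hI' hβ' hb' hrel' hg using key
  have hinj : Function.Injective τ := by
    intro c c' h
    have hg' := hg c'
    rw [← h] at hg'
    have hne : ∀ d : S, φ' d ≠ 0 := fun d e => by
      have := hrel' d
      rw [e, zero_mul] at this
      exact mul_ne_zero (by norm_num)
        (pow_ne_zero 2 (RingOfIntegers.coe_ne_zero_iff.2 (hb' d))) this.symm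
    have hg0 : g c ≠ 0 := fun e => hne c (by rw [hg c, e]; ring)
    refine Subtype.ext ?_
    rw [← hI' c, ← hI' c']
    refine class_eq_of_square (hβ' c) (hβ' c') (hb' c) (hb' c') (hrel' c) (hrel' c')
      (w := g c' / g c) ?_
    rw [hg', hg c]
    field_simp
  obtain ⟨e⟩ := exists_embeddings K hK
  have h3 : Function.Injective fun ρ : K ≃ₐ[ℚ] K => e.symm ((e 0).comp ρ.toAlgHom) := fun ρ ρ' h =>
    AlgEquiv.ext fun x => (e 0).injective (AlgHom.congr_fun (e.symm.injective h) x)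
  have := Fintype.card_le_of_injective _ (h3.comp hinj)
  simpa using this

/-- **The sum of the two-torsion.** -/
theorem exists_sum_bound : ∃ C : ℝ, 0 ≤ C ∧
    ∀ (X : ℝ), 0 ≤ X → ∀ (ι : Type) (K : ι → Type) [∀ i, Field (K i)] [∀ i, NumberField (K i)],
      (∀ i, finrank ℚ (K i) = 3) → (∀ i, |(discr (K i) : ℝ)| ≤ X) →
      (∀ i j, Nonempty (K i ≃+* K j) → i = j) → ∀ S : Finset ι,
        ∑ i ∈ S, (Nat.card {c : ClassGroup (𝓞 (K i)) // c ^ 2 = 1 ∧ c ≠ 1} : ℝ) ≤ C * X := by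
  obtain ⟨C, hC, hquartic⟩ := FA.QuarticCount.quartic_fields_count
  refine ⟨3 * (C * 256), by positivity, fun X hX ι K _ _ h3 hdisc hne S => ?_⟩
  let T := S.sigma fun i => univ.filter fun c : ClassGroup (𝓞 (K i)) => c ^ 2 = 1 ∧ c ≠ 1
  have hT : ∀ p : T, ∃ (L : Type) (_ : Field L) (_ : NumberField L),
      Gives p.1.2 L ∧ |discr L| ≤ 256 * |discr (K p.1.1)| := fun p =>
    exists_gives (h3 _) (mem_filter.1 (mem_sigma.1 p.2).2).2.1
      (mem_filter.1 (mem_sigma.1 p.2).2).2.2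
  choose L hF hNF hG hd using hT
  let s : Setoid T := ⟨fun p q => Nonempty (L p ≃+* L q), fun p => ⟨RingEquiv.refl _⟩,
    fun ⟨f⟩ => ⟨f.symm⟩, fun ⟨f⟩ ⟨g⟩ => ⟨f.trans g⟩⟩
  obtain ⟨-, hQ⟩ := hquartic (256 * X) (by positivity) (Quotient s) (fun q => L q.out)
    (fun q => (hG _).1) (fun q => by
      have h := hd q.out
      calc |(discr (L q.out) : ℝ)| ≤ 256 * |(discr (K q.out.1.1) : ℝ)| := by exact_mod_cast h
        _ ≤ 256 * X := by gcongr; exact hdisc _)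
    fun q q' h => by rw [← Quotient.out_eq q, ← Quotient.out_eq q']; exact Quotient.sound h
  have hfib : ∀ q ∈ (univ : Finset (Quotient s)),
      (univ.filter fun p : T => (Quotient.mk s p) = q).card ≤ 3 := by
    intro q _
    obtain ⟨⟨⟨i₀, c₀⟩, h₀⟩, rfl⟩ := Quotient.exists_rep q
    set P := univ.filter fun p : T => Quotient.mk s p = Quotient.mk s ⟨⟨i₀, c₀⟩, h₀⟩
    have hi : ∀ p ∈ P, p.1.1 = i₀ := fun p hp => by
      obtain ⟨σ⟩ : Nonempty (L p ≃+* L ⟨⟨i₀, c₀⟩, h₀⟩) :=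
        Quotient.exact ((mem_filter.1 hp).2)
      obtain ⟨hn, D, I, β, b₀, φ, hR, hφ, -⟩ := hG ⟨⟨i₀, c₀⟩, h₀⟩
      obtain ⟨hn', D', I', β', b₀', φ', hR', hφ', -⟩ := hG p
      obtain ⟨τ, -⟩ := exists_transfer_iso (h3 _) (h3 _) hn D D' hR hR' hφ hφ' σ
      exact (hne _ _ ⟨τ.toRingEquiv⟩).symm
    set S' := univ.filter fun c : ClassGroup (𝓞 (K i₀)) =>
      ∃ hp : (⟨i₀, c⟩ : Σ i, ClassGroup (𝓞 (K i))) ∈ T, (⟨_, hp⟩ : T) ∈ P
    refine le_trans ?_ (card_fibre_le (h3 i₀) (hG ⟨⟨i₀, c₀⟩, h₀⟩) S' fun c hc => ?_)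
    · refine (Finset.card_le_card_of_surjOn (fun c : ClassGroup (𝓞 (K i₀)) =>
        (⟨i₀, c⟩ : Σ i, ClassGroup (𝓞 (K i)))) (s := S')
        (t := P.map (Function.Embedding.subtype _)) ?_).trans' (by rw [card_map])
      intro x hx
      obtain ⟨⟨⟨i, c⟩, hp⟩, hP, rfl⟩ := Finset.mem_map.1 (mem_coe.1 hx)
      obtain rfl : i = i₀ := hi _ hP
      exact ⟨c, mem_coe.2 (mem_filter.2 ⟨mem_univ _, hp, hP⟩), rfl⟩
    · obtain ⟨hp, hP⟩ := (mem_filter.1 hc).2
      exact ⟨_, hF ⟨_, hp⟩, hNF ⟨_, hp⟩, hG ⟨_, hp⟩, Quotient.exact (mem_filter.1 hP).2⟩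
  have hcard := card_le_mul_card_image_of_maps_to (s := (univ : Finset T)) (t := univ)
    (f := fun p => Quotient.mk s p) (fun p _ => mem_univ _) 3 hfib
  rw [card_univ, card_univ, Fintype.card_coe] at hcard
  rw [Nat.card_eq_fintype_card] at hQ
  have hsum : ∑ i ∈ S, (Nat.card {c : ClassGroup (𝓞 (K i)) // c ^ 2 = 1 ∧ c ≠ 1} : ℝ) =
      (T.card : ℝ) := by
    simp [T, card_sigma, Nat.card_eq_fintype_card, Fintype.card_subtype]
  rw [hsum]
  calc (T.card : ℝ) ≤ 3 * (Fintype.card (Quotient s) : ℝ) := by exact_mod_cast hcard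
    _ ≤ 3 * (C * (256 * X)) := by gcongr
    _ = _ := by ring

end FA.CubicTwoTorsion
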