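import Fermat.Agent.CubicTwoTorsion.Classes
import Fermat.Agent.QuarticCount.Lattice

/-!
# The discriminant of the quartic field of a class

For `b ∈ 𝔟` the sum of the three numbers `b⁽ⁱ⁾ / √β⁽ⁱ⁾` is an integer of the quartic field; with `1`
these span a lattice of discriminant `256` times that of the cubic field.
-/

set_option autoImplicit false
set_option linter.style.haveILetI false

noncomputable section

open NumberField Module Finset Matrix
open FA.QuarticResolvent (Depressed QuadRoots exists_embeddings exists_coords_three res_irrat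
  exists_cubic_embeddings)
open FA.QuarticCount (emb exists_delta)
open scoped Classical nonZeroDivisors

namespace FA.CubicTwoTorsion

variable {K : Type} [Field K] [NumberField K] {L : Type} [Field L] [NumberField L]

/-- The determinant of a basis of an ideal. -/
theorem exists_ideal_basis (hK : finrank ℚ K = 3) (e : Fin 3 ≃ (K →ₐ[ℚ] ℂ)) (I : (Ideal (𝓞 K))⁰) :
    ∃ b : Fin 3 → 𝓞 K, (∀ k, b k ∈ (I : Ideal (𝓞 K))) ∧
      (Matrix.of fun k i => e i (b k : K)).det ^ 2 =
        (Ideal.absNorm (I : Ideal (𝓞 K)) : ℂ) ^ 2 * (discr K : ℂ) := by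
  have hI0 : (I : Ideal (𝓞 K)) ≠ 0 := nonZeroDivisors.coe_ne_zero I
  have hcard : Fintype.card (Free.ChooseBasisIndex ℤ (𝓞 K)) = 3 := by
    rw [← finrank_eq_card_chooseBasisIndex, RingOfIntegers.rank, hK]
  set ε : Free.ChooseBasisIndex ℤ (𝓞 K) ≃ Fin 3 := Fintype.equivFinOfCardEq hcard
  set bZ := (RingOfIntegers.basis K).reindex ε
  let bI := Ideal.selfBasis bZ (I : Ideal (𝓞 K)) hI0
  refine ⟨fun k => bI k, fun k => (bI k).2, ?_⟩
  set E : Matrix (Fin 3) (Fin 3) ℂ := Matrix.of fun k i => e i (bZ k : K)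
  have hE : E.det ^ 2 = (discr K : ℂ) := by
    have h := Algebra.discr_eq_det_embeddingsMatrixReindex_pow_two ℚ ℂ (fun k => (bZ k : K)) e
    rw [show (fun k => (bZ k : K)) = ⇑((integralBasis K).reindex ε) from funext fun k => by
        simp [bZ, Basis.reindex_apply, integralBasis_apply],
      Basis.coe_reindex, Algebra.discr_reindex, ← coe_discr, map_intCast] at h
    rw [h]
    refine congrArg (fun M : Matrix (Fin 3) (Fin 3) ℂ => M.det ^ 2) ?_
    ext k i
    simp [Algebra.embeddingsMatrixReindex, Algebra.embeddingsMatrix, E, bZ, Basis.reindex_apply,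
      integralBasis_apply]
  set P : Matrix (Fin 3) (Fin 3) ℤ := Matrix.of fun k m => bZ.repr (bI k) m
  have hM : (Matrix.of fun k i => e i ((bI k : 𝓞 K) : K)) =
      P.map (Int.castRingHom ℂ) * E := by
    ext k i
    simp only [Matrix.mul_apply, Matrix.map_apply, Matrix.of_apply, eq_intCast, E, P]
    conv_lhs => rw [← bZ.sum_repr (bI k : 𝓞 K)]
    rw [RingOfIntegers.coe_eq_algebraMap, map_sum, map_sum]
    refine Finset.sum_congr rfl fun m _ => ?_
    rw [zsmul_eq_mul, map_mul, map_intCast, map_mul, map_intCast]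
  have hP : P.det.natAbs = Ideal.absNorm (I : Ideal (𝓞 K)) := by
    rw [← Ideal.natAbs_det_basis_change bZ _ bI, Basis.det_apply, ← Matrix.det_transpose]
    rfl
  have e2 : (Ideal.absNorm (I : Ideal (𝓞 K)) : ℂ) ^ 2 = (P.det : ℂ) ^ 2 := by
    rw [← hP, ← Int.cast_natCast, ← Int.cast_pow, Int.natAbs_sq, Int.cast_pow]
  rw [hM, Matrix.det_mul, ← RingHom.mapMatrix_apply, ← RingHom.map_det, mul_pow, hE, eq_intCast,
    e2]

/-- The three odd values with the signs of the four conjugates. -/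
def signed (h : Fin 3 → ℂ) : Fin 4 → ℂ :=
  ![h 0 + h 1 + h 2, h 0 - h 1 - h 2, -h 0 + h 1 - h 2, -h 0 - h 1 + h 2]

theorem det_signed (h : Fin 3 → Fin 3 → ℂ) :
    (Matrix.of (Fin.cons 1 (fun k => signed (h k)) : Fin 4 → Fin 4 → ℂ)).det ^ 2 =
      256 * (Matrix.of h).det ^ 2 := by
  rw [show (Fin.cons 1 (fun k => signed (h k)) : Fin 4 → Fin 4 → ℂ) =
      ![1, signed (h 0), signed (h 1), signed (h 2)] from funext fun k => by fin_cases k <;> rfl,
    Matrix.det_succ_row_zero]
  simp [Fin.sum_univ_four, Matrix.det_fin_three, Fin.succAbove, signed]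
  ring

/-- **The odd elements.** -/
theorem exists_signed (D : Depressed L) (hn : finrank ℚ L = 4) (hR : D.NoRatRoot)
    (hK : finrank ℚ K = 3) {φ : K} (hφ : D.IsRes φ) (e : Fin 4 ≃ (L →ₐ[ℚ] ℂ))
    (eK : Fin 3 ≃ (K →ₐ[ℚ] ℂ))
    (heK : ∀ i, eK i φ = QuadRoots.val (fun j => e j D.θ) i.succ) (y : K) :
    ∃ w : L, emb e w = signed fun i => eK i y * (e 0 D.θ + e i.succ D.θ) := by
  obtain ⟨a, b, c, hy⟩ := exists_coords_three hK (res_irrat hR hφ) y
  refine ⟨(a : L) * (2 * D.θ) +
      (b : L) * (-4 * D.θ ^ 3 - 6 * (D.p : L) * D.θ - 3 * (D.q : L)) +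
      (c : L) * (32 * D.θ ^ 5 - 40 * D.θ ^ 3 * (2 * D.θ ^ 2 + (D.p : L)) -
        20 * D.θ ^ 2 * (D.q : L) + 10 * D.θ * (2 * D.θ ^ 2 + (D.p : L)) ^ 2 +
        5 * (D.q : L) * (2 * D.θ ^ 2 + (D.p : L))), funext fun j => ?_⟩
  set x := fun j => e j D.θ
  have hr : QuadRoots (D.p : ℂ) D.q D.r x := D.quadRoots hn e
  obtain ⟨P1, P3, P5⟩ := (hr.perm (Equiv.swap 0 j)).power_sums
  simp only [Function.comp_apply, Equiv.swap_apply_left] at P1 P3 P5
  have e3 : x 3 = -(x 0 + x 1 + x 2) := by linear_combination hr.sum_eq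
  simp only [emb, map_add, map_mul, map_sub, map_neg, map_pow, map_intCast, map_ratCast,
    map_ofNat, show ∀ i, e i D.θ = x i from fun _ => rfl]
  rw [← P1, ← P3, ← P5]
  simp only [hy, map_add, map_mul, map_pow, map_ratCast, heK, QuadRoots.val, signed]
  fin_cases j <;> simp [Equiv.swap_apply_def, e3] <;> ring

/-- **The discriminant bound.** -/
theorem discr_quartic_le (D : Depressed L) (hn : finrank ℚ L = 4) (hR : D.NoRatRoot)
    (hK : finrank ℚ K = 3) {φ : K} (hφ : D.IsRes φ) {I : (Ideal (𝓞 K))⁰} {β b₀ : 𝓞 K}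
    (hI : (I : Ideal (𝓞 K)) ^ 2 = Ideal.span {β}) (hb₀ : b₀ ≠ 0)
    (hrel : φ * β = 4 * (b₀ : K) ^ 2) : |discr L| ≤ 256 * |discr K| := by
  obtain ⟨e⟩ := exists_embeddings L hn
  obtain ⟨eK, heK⟩ := exists_cubic_embeddings D hn hR hK hφ e
  obtain ⟨b, hb, hdet⟩ := exists_ideal_basis hK eK I
  have hb₀K : (b₀ : K) ≠ 0 := RingOfIntegers.coe_ne_zero_iff.2 hb₀
  have hβK : (β : K) ≠ 0 := by
    intro h
    rw [h, mul_zero] at hrel
    exact mul_ne_zero (by norm_num) (pow_ne_zero 2 hb₀K) hrel.symm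
  set s : Fin 3 → ℂ := fun i => (e 0 D.θ + e i.succ D.θ) / (2 * eK i (b₀ : K))
  have hs : ∀ i, s i ^ 2 * eK i (β : K) = 1 := fun i => by
    have h : eK i (φ * β) = eK i (4 * (b₀ : K) ^ 2) := congrArg (eK i) hrel
    rw [map_mul, map_mul, map_pow, map_ofNat, heK, QuadRoots.val] at h
    have : eK i (b₀ : K) ≠ 0 := (map_ne_zero _).2 hb₀K
    simp only [s, div_pow]
    field_simp
    linear_combination h
  choose w hw using fun k => exists_signed D hn hR hK hφ e eK heK ((b k : K) / (2 * (b₀ : K)))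
  set h : Fin 3 → Fin 3 → ℂ := fun k i => eK i (b k : K) * s i
  have hw' : ∀ k, emb e (w k) = signed (h k) := fun k => by
    rw [hw k]
    congr 1
    funext i
    simp only [h, s, map_div₀, map_mul, map_ofNat]
    ring
  have hint : ∀ k, IsIntegral ℤ (w k) := fun k => by
    have hterm : ∀ i, IsIntegral ℤ (h k i) := fun i => by
      obtain ⟨g, hg⟩ := Ideal.mem_span_singleton'.1 (hI ▸ Ideal.pow_mem_pow (hb k) 2)
      refine IsIntegral.of_pow two_pos ?_
      have e2 : h k i ^ 2 = eK i (g : K) := by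
        have hg' : (g : K) * β = (b k : K) ^ 2 := by
          exact_mod_cast congrArg (fun z : 𝓞 K => (z : K)) hg
        have := congrArg (eK i) hg'
        rw [map_mul, map_pow] at this
        simp only [h, mul_pow, ← this]
        linear_combination eK i (g : K) * hs i
      rw [e2]
      exact (RingOfIntegers.isIntegral_coe g).map ((eK i).restrictScalars ℤ)
    refine (isIntegral_algHom_iff ((e 0).restrictScalars ℤ) (e 0).injective).1 ?_
    rw [show ((e 0).restrictScalars ℤ) (w k) = emb e (w k) 0 from rfl, hw' k]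
    exact ((hterm 0).add (hterm 1)).add (hterm 2)
  obtain ⟨δ, hδ2, -, hδ⟩ := exists_delta e
  obtain ⟨n, hn'⟩ := hδ (Fin.cons 1 fun k => ⟨w k, hint k⟩)
  rw [show (fun k => emb e ((Fin.cons 1 (fun k => (⟨w k, hint k⟩ : 𝓞 L)) : Fin 4 → 𝓞 L) k : L)) =
      (Fin.cons 1 (fun k => signed (h k)) : Fin 4 → Fin 4 → ℂ) from funext fun k => by
    induction k using Fin.cases with
    | zero => funext j; simp [emb]
    | succ k => rw [Fin.cons_succ, Fin.cons_succ, ← hw' k]; rfl] at hn'
  have hmain : (n : ℂ) ^ 2 * (discr L : ℂ) = 256 * ((discr K : ℤ) : ℂ) ∨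
      (n : ℂ) ^ 2 * (discr L : ℂ) = 256 * ((-discr K : ℤ) : ℂ) := by
    have hh : (Matrix.of h).det = (∏ i, s i) * (Matrix.of fun k i => eK i (b k : K)).det := by
      rw [← Matrix.det_mul_row]
      congr 1
      ext k i
      simp [h, mul_comm]
    have hprod : (∏ i, s i) ^ 2 * ((Algebra.norm ℤ β : ℤ) : ℂ) = 1 := by
      rw [← map_intCast (algebraMap ℚ ℂ), Algebra.coe_norm_int, Algebra.norm_eq_prod_embeddings,
        ← Equiv.prod_comp eK (fun σ : K →ₐ[ℚ] ℂ => σ (β : K)), ← Finset.prod_pow,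
        ← Finset.prod_mul_distrib]
      exact Finset.prod_eq_one fun i _ => hs i
    have habs := congrArg Ideal.absNorm hI
    rw [map_pow, Ideal.absNorm_span_singleton] at habs
    have key : (n : ℂ) ^ 2 * (discr L : ℂ) =
        256 * ((∏ i, s i) ^ 2 * ((Ideal.absNorm (I : Ideal (𝓞 K)) : ℂ) ^ 2) * (discr K : ℂ)) := by
      rw [← hδ2, ← mul_pow, ← hn', det_signed, hh, mul_pow, hdet]
      ring
    rcases Int.natAbs_eq (Algebra.norm ℤ β) with h' | h'
    all_goals rw [h', ← habs] at hprod; push_cast at hprod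
    · refine Or.inl (key.trans ?_)
      linear_combination 256 * (discr K : ℂ) * hprod
    · refine Or.inr (key.trans ?_)
      push_cast
      linear_combination -256 * (discr K : ℂ) * hprod
  obtain ⟨m, hm, hcases⟩ : ∃ m : ℤ, |m| = |discr K| ∧ n ^ 2 * discr L = 256 * m := by
    rcases hmain with h' | h'
    · exact ⟨_, rfl, by exact_mod_cast h'⟩
    · exact ⟨_, abs_neg _, by exact_mod_cast h'⟩
  have hn0 : n ≠ 0 := fun h0 => by
    rw [h0, zero_pow two_ne_zero, zero_mul] at hcases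
    exact discr_ne_zero K (abs_eq_zero.1 (hm ▸ abs_eq_zero.2 (by omega : m = 0)))
  calc |discr L| ≤ n ^ 2 * |discr L| :=
        le_mul_of_one_le_left (abs_nonneg _) (by nlinarith [Int.one_le_abs hn0, sq_abs n])
    _ = |n ^ 2 * discr L| := by rw [abs_mul, abs_pow, sq_abs]
    _ = 256 * |discr K| := by rw [hcases, abs_mul, hm]; norm_num

end FA.CubicTwoTorsion
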