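import Fermat.Agent.CubicTwoTorsion.Count
import Fermat.Agent.Root.SummaryDavenportHeilbronnFields

/-!
# The mean of the two-torsion of cubic fields

The classes killed by two number `O (X)` and, by Davenport and Heilbronn, the cubic fields of either
signature number at least a multiple of `X`; so the mean is bounded.
-/

set_option autoImplicit false
set_option linter.style.haveILetI false

noncomputable section

open NumberField Module Finset Filter Topology
open scoped Classical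

namespace FA.CubicTwoTorsion

/-- A complete system of the cubic fields whose discriminant satisfies `p`. -/
def IsSystem (p : ℤ → Prop) {ι : Type} (F : ι → Type) [∀ i, Field (F i)]
    [∀ i, NumberField (F i)] : Prop :=
  (∀ i, finrank ℚ (F i) = 3 ∧ p (discr (F i))) ∧ (∀ i j, Nonempty (F i ≃+* F j) → i = j) ∧
    ∀ (L : Type) [Field L] [NumberField L], finrank ℚ L = 3 → p (discr L) →
      ∃ i, Nonempty (F i ≃+* L)

theorem card_le_of_system {p : ℤ → Prop} {ι κ : Type} [Fintype ι] [Fintype κ] {F : ι → Type}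
    {G : κ → Type} [∀ i, Field (F i)] [∀ i, NumberField (F i)] [∀ i, Field (G i)]
    [∀ i, NumberField (G i)] (hF : IsSystem p F) (hG : IsSystem p G) :
    Fintype.card κ ≤ Fintype.card ι := by
  choose f hf using fun j : κ => hF.2.2 (G j) (hG.1 j).1 (hG.1 j).2
  refine Fintype.card_le_of_injective f fun j j' h => ?_
  obtain ⟨a⟩ := hf j
  obtain ⟨b⟩ := hf j'
  rw [← h] at b
  exact hG.2.1 j j' ⟨a.symm.trans b⟩

/-- **A bounded mean**, from a count from below. -/
theorem mean_of_density {p : ℝ → ℤ → Prop} (hp : ∀ X d, p X d → |(d : ℝ)| ≤ X) {N : ℝ → ℕ}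
    {κ : ℝ} (hκ : 0 < κ)
    (hsys : ∀ X, ∃ (F : Fin (N X) → Type) (_ : ∀ i, Field (F i)) (_ : ∀ i, NumberField (F i)),
      IsSystem (p X) F)
    (hlim : Tendsto (fun X => (N X : ℝ) / X) atTop (𝓝 κ)) : ∃ C : ℝ,
    ∀ (X : ℝ) (ι : Type) [Fintype ι] (F : ι → Type) [∀ i, Field (F i)] [∀ i, NumberField (F i)],
      IsSystem (p X) F →
        ∑ i, (Nat.card {c : ClassGroup (𝓞 (F i)) // c ^ 2 = 1} : ℝ) ≤ C * Fintype.card ι := by
  obtain ⟨C, hC, hsum⟩ := exists_sum_bound
  obtain ⟨X₀, hX₀⟩ := eventually_atTop.1 (hlim.eventually (eventually_ge_nhds (half_lt_self hκ)))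
  refine ⟨1 + C * max (max X₀ 1) (2 / κ), fun X ι _ F _ _ hF => ?_⟩
  rcases isEmpty_or_nonempty ι with hι | ⟨⟨i₁⟩⟩
  · simp
  have hX1 : 1 ≤ X := le_trans (by exact_mod_cast Int.one_le_abs (discr_ne_zero (F i₁)))
    (hp X _ (hF.1 i₁).2)
  have h := hsum X (by linarith) ι F (fun i => (hF.1 i).1) (fun i => hp X _ (hF.1 i).2) hF.2.1 univ
  have hsplit : ∀ i, (Nat.card {c : ClassGroup (𝓞 (F i)) // c ^ 2 = 1} : ℝ) ≤
      1 + Nat.card {c : ClassGroup (𝓞 (F i)) // c ^ 2 = 1 ∧ c ≠ 1} := fun i => by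
    rw [Nat.card_eq_fintype_card, Nat.card_eq_fintype_card, Fintype.card_subtype,
      Fintype.card_subtype, ← filter_filter, filter_ne']
    have := Finset.pred_card_le_card_erase
      (s := univ.filter fun c : ClassGroup (𝓞 (F i)) => c ^ 2 = 1) (a := 1)
    exact_mod_cast (show _ ≤ 1 + _ from by omega)
  have hn : (1 : ℝ) ≤ Fintype.card ι := by exact_mod_cast Fintype.card_pos_iff.2 ⟨i₁⟩
  have hkey : X ≤ max (max X₀ 1) (2 / κ) * Fintype.card ι := by
    rcases le_total X (max X₀ 1) with hX | hX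
    · exact (hX.trans (le_max_left _ _)).trans (le_mul_of_one_le_right (by positivity) hn)
    · obtain ⟨G, _, _, hG⟩ := hsys X
      have hN : (N X : ℝ) ≤ Fintype.card ι := by
        exact_mod_cast (Fintype.card_fin (N X)).symm.trans_le (card_le_of_system hF hG)
      have h2 := hX₀ X ((le_max_left _ _).trans hX)
      rw [le_div_iff₀ (by linarith)] at h2
      refine le_trans ?_ (mul_le_mul_of_nonneg_right (le_max_right _ _) (by positivity))
      rw [div_mul_eq_mul_div, le_div_iff₀ hκ]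
      linarith
  calc ∑ i, (Nat.card {c : ClassGroup (𝓞 (F i)) // c ^ 2 = 1} : ℝ)
      ≤ Fintype.card ι + C * X := by
        refine (sum_le_sum fun i _ => hsplit i).trans ?_
        rw [sum_add_distrib, sum_const, card_univ, nsmul_eq_mul, mul_one]
        linarith
    _ ≤ _ := by nlinarith [mul_le_mul_of_nonneg_left hkey hC]

/-- **Totally real and complex cubic fields.** -/
theorem exists_mean_bound : ∃ C : ℝ,
    ∀ (X : ℝ) (ι : Type) [Fintype ι] (F : ι → Type) [∀ i, Field (F i)] [∀ i, NumberField (F i)],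
      (IsSystem (fun d => 0 < d ∧ (d : ℝ) ≤ X) F ∨ IsSystem (fun d => d < 0 ∧ (-d : ℝ) ≤ X) F) →
        ∑ i, (Nat.card {c : ClassGroup (𝓞 (F i)) // c ^ 2 = 1} : ℝ) ≤ C * Fintype.card ι := by
  obtain ⟨N₁, hs₁, hl₁⟩ := FA.CubicFields.Summary.davenport_heilbronn_real
  obtain ⟨N₂, hs₂, hl₂⟩ := FA.CubicFields.Summary.davenport_heilbronn_complex
  have hz := FA.CubicFields.Summary.zeta_three_pos
  obtain ⟨C₁, h₁⟩ := mean_of_density (p := fun X d => 0 < d ∧ (d : ℝ) ≤ X)
    (fun X d h => by rw [abs_of_pos (Int.cast_pos.2 h.1)]; exact h.2) (by positivity)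
    (fun X => by
      obtain ⟨F, i1, i2, h, hne, hc⟩ := hs₁ X
      exact ⟨F, i1, i2, fun i => ⟨(h i).1, (h i).2⟩, hne, fun L _ _ h3 hp => hc L h3 hp.1 hp.2⟩)
    hl₁
  obtain ⟨C₂, h₂⟩ := mean_of_density (p := fun X d => d < 0 ∧ (-d : ℝ) ≤ X)
    (fun X d h => by rw [abs_of_neg (Int.cast_lt_zero.2 h.1)]; exact h.2) (by positivity)
    (fun X => by
      obtain ⟨F, i1, i2, h, hne, hc⟩ := hs₂ X
      exact ⟨F, i1, i2, fun i => ⟨(h i).1, (h i).2⟩, hne, fun L _ _ h3 hp => hc L h3 hp.1 hp.2⟩)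
    hl₂
  refine ⟨max C₁ C₂, fun X ι _ F _ _ h => ?_⟩
  rcases h with h | h
  · exact (h₁ X ι F h).trans (mul_le_mul_of_nonneg_right (le_max_left _ _) (by positivity))
  · exact (h₂ X ι F h).trans (mul_le_mul_of_nonneg_right (le_max_right _ _) (by positivity))

end FA.CubicTwoTorsion
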