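import Fermat.Agent.QuarticResolvent.Resolvent

/-!
# The quartic field of a resolvent root

A root of the resolvent in a cubic field, irrational and no square there, makes the quartic
irreducible; two cubic fields with a root of the same resolvent are isomorphic by a map taking one
root to the other.
-/

set_option autoImplicit false
set_option linter.style.haveILetI false

noncomputable section

open NumberField Module Polynomial
open FA.QuarticResolvent (resEval Depressed exists_coords_three res_irrat)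
open scoped Classical IntermediateField

namespace FA.CubicTwoTorsion

variable {K : Type} [Field K] [NumberField K]

/-- An irrational element of a cubic field satisfies no quadratic equation. -/
theorem quadratic_coeff_zero (hK : finrank ℚ K = 3) {φ : K} (hirr : ∀ u : ℚ, (u : K) ≠ φ)
    {a b c : ℚ} (h : (a : K) * φ ^ 2 + (b : K) * φ + (c : K) = 0) : a = 0 ∧ b = 0 ∧ c = 0 := by
  obtain ⟨-, hdeg⟩ := FA.CubicFieldsBound.natDegree_minpoly hK hirr
  set P : ℚ[X] := C a * X ^ 2 + C b * X + C c
  have hP : aeval φ P = 0 := by simpa [P] using h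
  have hP0 : P = 0 := by
    by_contra hne
    have h2 : P.natDegree ≤ 2 := by simp only [P]; compute_degree
    have := (natDegree_le_of_dvd (minpoly.dvd ℚ _ hP) hne).trans h2
    rw [hdeg] at this
    omega
  refine ⟨?_, ?_, ?_⟩
  · simpa [P, coeff_X, coeff_C] using congrArg (fun Q => Polynomial.coeff Q 2) hP0
  · simpa [P, coeff_X, coeff_C] using congrArg (fun Q => Polynomial.coeff Q 1) hP0
  · simpa [P, coeff_X, coeff_C] using congrArg (fun Q => Polynomial.coeff Q 0) hP0

/-- A resolvent with an irrational root in a cubic field has no rational root. -/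
theorem no_rational_root (hK : finrank ℚ K = 3) {φ : K} (hirr : ∀ u : ℚ, (u : K) ≠ φ)
    {p q r : ℚ} (hφ : resEval (p : K) q r φ = 0) (z : ℚ) : resEval p q r z ≠ 0 := by
  intro hz
  have hz' : resEval (p : K) q r (z : K) = 0 := by
    unfold resEval at hz ⊢
    exact_mod_cast congrArg (fun x : ℚ => (x : K)) hz
  unfold resEval at hφ hz'
  have hne : φ - (z : K) ≠ 0 := sub_ne_zero.2 (hirr z).symm
  exact one_ne_zero (quadratic_coeff_zero hK hirr (a := 1) (b := z + 2 * p)
    (c := z ^ 2 + 2 * p * z + (p ^ 2 - 4 * r)) (mul_left_cancel₀ hne (by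
      push_cast
      linear_combination hφ - hz'))).1

/-- A rational root of the quartic makes the resolvent root a square. -/
theorem isSquare_of_root {φ : K} (hirr : ∀ u : ℚ, (u : K) ≠ φ)
    {p q r t : ℚ} (hφ : resEval (p : K) q r φ = 0)
    (ht : t ^ 4 + p * t ^ 2 + q * t + r = 0) : IsSquare φ := by
  have ht' : (t : K) ^ 4 + (p : K) * (t : K) ^ 2 + (q : K) * (t : K) + (r : K) = 0 := by
    exact_mod_cast congrArg (fun x : ℚ => (x : K)) ht
  unfold resEval at hφ
  have hden : φ + 2 * (t : K) ^ 2 + (p : K) ≠ 0 := fun h => hirr (-(2 * t ^ 2 + p)) (by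
    push_cast; linear_combination -h)
  refine ⟨(2 * φ * (t : K) - (q : K)) / (φ + 2 * (t : K) ^ 2 + (p : K)), ?_⟩
  rw [← sq, div_pow, eq_div_iff (pow_ne_zero 2 hden)]
  linear_combination hφ + 4 * φ * ht'

/-- **The quartic is irreducible.** -/
theorem irreducible_quartic (hK : finrank ℚ K = 3) {φ : K} (hirr : ∀ u : ℚ, (u : K) ≠ φ)
    (hsq : ¬ IsSquare φ) {p q r : ℚ} (hφ : resEval (p : K) q r φ = 0) :
    Irreducible (X ^ 4 + C p * X ^ 2 + C q * X + C r : ℚ[X]) := by
  set f : ℚ[X] := X ^ 4 + C p * X ^ 2 + C q * X + C r with hf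
  have hm : f.Monic := by simp only [f]; monicity!
  have hdeg : f.natDegree = 4 := by simp only [f]; compute_degree!
  rw [hm.irreducible_iff_lt_natDegree_lt (fun h => by simp [h] at hdeg), hdeg]
  intro Q hQm hQd hdvd
  rw [Finset.mem_Ioc] at hQd
  obtain h | h : Q.natDegree = 1 ∨ Q.natDegree = 2 := by omega
  · rw [hQm.eq_X_add_C h, show X + C (Q.coeff 0) = X - C (-(Q.coeff 0)) by simp,
      dvd_iff_isRoot] at hdvd
    refine hsq (isSquare_of_root hirr hφ (t := -(Q.coeff 0)) ?_)
    simp [f] at hdvd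
    linear_combination hdvd
  · set a := Q.coeff 1
    set b := Q.coeff 0
    have hQ : Q = X ^ 2 + C a * X + C b := by
      conv_lhs => rw [hQm.as_sum, h]
      simp [Finset.sum_range_succ, a, b]
      ring
    set u := -a ^ 3 + 2 * a * b - a * p + q
    set v := r - b * (a ^ 2 - b + p)
    have e : f = Q * (X ^ 2 - C a * X + C (a ^ 2 - b + p)) + (C u * X + C v) := by
      rw [hQ]
      simp only [f, u, v, map_sub, map_add, map_mul, map_pow, map_neg, map_ofNat]
      ring
    have hrem : Q ∣ C u * X + C v := (dvd_add_right (dvd_mul_right _ _)).1 (e ▸ hdvd)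
    have h0 : C u * X + C v = 0 := by
      by_contra hne
      have := natDegree_le_of_dvd hrem hne
      have hle : (C u * X + C v).natDegree ≤ 1 := by compute_degree
      omega
    have hu : u = 0 := by simpa [coeff_C] using congrArg (fun P => Polynomial.coeff P 1) h0
    have hv : v = 0 := by simpa using congrArg (fun P => Polynomial.coeff P 0) h0
    refine no_rational_root hK hirr hφ (a ^ 2) ?_
    unfold resEval
    simp only [u, v] at hu hv
    linear_combination (-4 * a ^ 2) * hv +
      (-(a ^ 3) + 2 * a * b - a * p - q) * hu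

/-- A resolvent root is irrational. -/
theorem noRatRoot_of_res {L : Type} [Field L] [NumberField L] (D : Depressed L)
    (hK : finrank ℚ K = 3) {φ : K} (hirr : ∀ u : ℚ, (u : K) ≠ φ) (hφ : D.IsRes φ) :
    D.NoRatRoot := fun z hz =>
  no_rational_root hK hirr (p := (D.p : ℚ)) (q := (D.q : ℚ)) (r := (D.r : ℚ))
    (by simpa [Depressed.IsRes] using hφ) z hz

/-- **Two cubic fields with roots of one resolvent.** -/
theorem exists_iso_of_res {L : Type} [Field L] [NumberField L] (D : Depressed L) (hR : D.NoRatRoot)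
    {K' : Type} [Field K'] [NumberField K'] (hK : finrank ℚ K = 3) (hK' : finrank ℚ K' = 3)
    {φ : K} {φ' : K'} (hφ : D.IsRes φ) (hφ' : D.IsRes φ') : ∃ τ : K ≃ₐ[ℚ] K', τ φ = φ' := by
  set f : ℚ[X] := X ^ 3 + C (2 * (D.p : ℚ)) * X ^ 2 +
    C ((D.p : ℚ) ^ 2 - 4 * (D.r : ℚ)) * X + C (-(D.q : ℚ) ^ 2)
  have hfm : f.Monic := by simp only [f]; monicity!
  have hroot : ∀ {M : Type} [Field M] [NumberField M] (z : M), D.IsRes z → aeval z f = 0 := by
    intro M _ _ z hz
    have hz' : resEval (D.p : M) D.q D.r z = 0 := hz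
    unfold resEval at hz'
    simp [f, map_ofNat]
    linear_combination hz'
  have hint : IsIntegral ℚ φ := IsIntegral.of_finite ℚ _
  obtain ⟨htop, hdeg⟩ := FA.CubicFieldsBound.natDegree_minpoly hK (res_irrat hR hφ)
  have hmin : minpoly ℚ φ = f :=
    (Polynomial.eq_of_monic_of_dvd_of_natDegree_le (minpoly.monic hint) hfm
      (minpoly.dvd ℚ _ (hroot φ hφ)) (by rw [hdeg]; simp only [f]; compute_degree)).symm
  set pb := (IntermediateField.adjoin.powerBasis hint).map
    ((IntermediateField.equivOfEq htop).trans IntermediateField.topEquiv)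
  have hgen : pb.gen = φ := by simp [pb]
  set τ : K →ₐ[ℚ] K' := pb.lift φ' (by rw [hgen, hmin]; exact hroot φ' hφ')
  have hbij : Function.Bijective τ := ⟨τ.toRingHom.injective,
    (LinearMap.injective_iff_surjective_of_finrank_eq_finrank (f := τ.toLinearMap)
      (by rw [hK, hK'])).mp τ.toRingHom.injective⟩
  refine ⟨AlgEquiv.ofBijective τ hbij, ?_⟩
  show τ φ = φ'
  simp [τ, ← hgen]

/-- **The quartic field.** -/
theorem exists_field (hK : finrank ℚ K = 3) {φ : K} (hirr : ∀ u : ℚ, (u : K) ≠ φ)
    (hsq : ¬ IsSquare φ) {p q r : ℤ} (hφ : resEval (p : K) q r φ = 0) :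
    ∃ (L : Type) (_ : Field L) (_ : NumberField L), finrank ℚ L = 4 ∧
      ∃ D : Depressed L, D.p = p ∧ D.q = q ∧ D.r = r := by
  set f : ℚ[X] := X ^ 4 + C (p : ℚ) * X ^ 2 + C (q : ℚ) * X + C (r : ℚ)
  haveI : Fact (Irreducible f) := ⟨irreducible_quartic hK hirr hsq (by simpa using hφ)⟩
  have hm : f.Monic := by simp only [f]; monicity!
  have hd : f.natDegree = 4 := by simp only [f]; compute_degree!
  haveI : FiniteDimensional ℚ (AdjoinRoot f) := (AdjoinRoot.powerBasis hm.ne_zero).finite
  haveI : CharZero (AdjoinRoot f) :=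
    charZero_of_injective_algebraMap (algebraMap ℚ (AdjoinRoot f)).injective
  haveI hNF : NumberField (AdjoinRoot f) := {}
  have h : f.eval₂ (algebraMap ℚ (AdjoinRoot f)) (AdjoinRoot.root f) = 0 := by
    rw [Subsingleton.elim (algebraMap ℚ (AdjoinRoot f)) (AdjoinRoot.of f), AdjoinRoot.eval₂_root]
  refine ⟨AdjoinRoot f, inferInstance, hNF, ?_,
    ⟨AdjoinRoot.root f, p, q, r, ?_, ?_⟩, rfl, rfl, rfl⟩
  · rw [(AdjoinRoot.powerBasis hm.ne_zero).finrank, AdjoinRoot.powerBasis_dim, hd]
  · have h' := h
    simp only [f, eval₂_add, eval₂_mul, eval₂_pow, eval₂_X, eval₂_C] at h'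
    simp only [map_intCast] at h'
    exact h'
  · rw [← minpoly.eq_of_irreducible_of_monic Fact.out (show aeval (AdjoinRoot.root f) f = 0 by
      rw [aeval_def]; exact h) hm, hd]

end FA.CubicTwoTorsion
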